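/-
Library ModEq (architect helper254): THE MODULAR EQUATION `Φ_q(j(τ), j(qτ)) = 0`, `q` prime.

Definitions.  `s` is the variable of `ℚ̄((s))`, `t = s ^ q`.  The `q + 1` roots of `Φ_q(X, j(t))` are
`j(t ^ q) = Jser (q * q)` and `j(ζ ^ b s) = twist (ζ ^ b) (Jser 1)`, `b < q`.
-/
import Fermat.Agent.S24.B.Laurent
import Fermat.Agent.S24.Defs

set_option autoImplicit false

noncomputable section

namespace Fermat.Agent.Lib.ModEq

open Polynomial ModularCurve Fermat.Agent.S24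

/-- `∏_{b < q} (X - j(ζ ^ b s))`. -/
def Phi0 (q : ℕ) (ζ : Kbarˣ) : (LaurentSeries Kbar)[X] :=
  ∏ b ∈ Finset.range q, (X - C (B.twist (ζ ^ b) (Jser 1)))

/-- `(X - j(s ^ (q * q))) * ∏_{b < q} (X - j(ζ ^ b s))`. -/
def Phis (q : ℕ) [NeZero q] (ζ : Kbarˣ) : (LaurentSeries Kbar)[X] :=
  (X - C (Jser (q * q))) * Phi0 q ζ

/-- `f` has a pole of order at most `m`. -/
def Bdd (m : ℤ) (f : LaurentSeries Kbar) : Prop := ∀ n : ℤ, n < -m → f.coeff n = 0

/-- all the coefficients of `f` are algebraic integers. -/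
def IntC (f : LaurentSeries Kbar) : Prop := ∀ n : ℤ, IsIntegral ℤ (f.coeff n)

end Fermat.Agent.Lib.ModEq

end
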