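/-
Library ModEq (architect helper254).  MODEQ-4a: integrality of `j(qτ)` over `ℚ̄[j]`, degree.
STUB FILE: the statements are frozen interfaces; the task owner replaces every `sorry`
(auxiliary lemmas are welcome: make them `private` or give them fresh names).
-/
import Fermat.Agent.Lib.ModEq.Defs
import Fermat.Agent.S36.Norm.Degree
import Fermat.Agent.Lib.EtaUnit.Mem.Integral

set_option autoImplicit false

noncomputable section

namespace Fermat.Agent.Lib.ModEq

open Polynomial ModularCurve Fermat.Agent.S24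

/-- from `Lib/EtaUnit/Mem/Integral.lean` (`isIntegral_of_tex_eq` with
`f = inclAL q (jd q q dvd_rfl)`). -/
theorem isIntegral_JF (q : ℕ) [NeZero q] :
    IsIntegral (Algebra.adjoin Kbar {jF q}) (JF q q dvd_rfl) := by
  refine Fermat.Agent.Lib.EtaUnit.isIntegral_of_tex_eq (Fermat.Agent.Lib.EtaUnit.jN : _)
    Fermat.Agent.Lib.EtaUnit.smul_jN_of_mem (JF q q dvd_rfl) ?_
  rw [B.Psi_JF, B.texpL_algebraMap]
  exact (Fermat.Agent.Lib.EtaUnit.tex_inclAL _).symm

/-- `[FN q : ℚ̄(j)] = q + 1`. -/
private theorem finrank_FN_prime (q : ℕ) [NeZero q] (hq : q.Prime) :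
    Module.finrank (IntermediateField.adjoin Kbar {jF q}) (FN q) = q + 1 := by
  rw [Export.finrank_eq_index, Fermat.Agent.Lib.Gamma0Count.index_Gamma0 q (NeZero.ne q)]
  have h := Fermat.Agent.Lib.Gamma0Count.dedekindPsi_mul_of_not_dvd (p := q) (M := 1) one_ne_zero hq
    (fun h => hq.one_lt.ne' (Nat.dvd_one.mp h))
  rwa [mul_one, dedekindPsi_one, mul_one] at h

open IntermediateField.algebraAdjoinAdjoin in
/-- the coefficients of the minimal polynomial over `ℚ̄(j)` of an element integral over `ℚ̄[j]`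
are in `ℚ̄[j]`. -/
private theorem coeff_minpoly_mem (q : ℕ) [NeZero q] {z : FN q}
    (hz : IsIntegral (Algebra.adjoin Kbar {jF q}) z) (i : ℕ) :
    (((minpoly (IntermediateField.adjoin Kbar {jF q}) z).coeff i :
      IntermediateField.adjoin Kbar {jF q}) : FN q) ∈ Algebra.adjoin Kbar {jF q} := by
  have : IsIntegrallyClosed (Algebra.adjoin Kbar {jF q}) :=
    IsIntegrallyClosed.of_equiv
      (algEquivOfTranscendental Kbar (jF q) (Formal.transcendental_jF q)).toRingEquiv
  rw [minpoly.isIntegrallyClosed_eq_field_fractions' (IntermediateField.adjoin Kbar {jF q}) hz,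
    coeff_map]
  exact ((minpoly (Algebra.adjoin Kbar {jF q}) z).coeff i).2

/-- `ℚ̄[j]` is integrally closed with fraction field `ℚ̄(j)`, `[FN q : ℚ̄(j)] = q + 1`
(`S36/Norm/Degree.lean`): there is a monic polynomial of degree `≤ q + 1` with coefficients in
`ℚ̄[j]` killing `j(qτ)`. -/
theorem exists_monic_poly (q : ℕ) [NeZero q] (hq : q.Prime) :
    ∃ P : Kbar[X][X], P.Monic ∧ P.natDegree ≤ q + 1 ∧
      P.eval₂ (aeval (jF q) : Kbar[X] →ₐ[Kbar] FN q).toRingHom (JF q q dvd_rfl) = 0 := by
  set E := IntermediateField.adjoin Kbar {jF q} with hE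
  set x : FN q := JF q q dvd_rfl with hx
  have hfr : Module.finrank E (FN q) = q + 1 := finrank_FN_prime q hq
  have hfin : FiniteDimensional E (FN q) :=
    Module.finite_of_finrank_pos (by rw [hfr]; exact Nat.succ_pos q)
  have hint : IsIntegral E x := Algebra.IsIntegral.isIntegral x
  have hmonic : ((minpoly E x).map (algebraMap E (FN q))).Monic := (minpoly.monic hint).map _
  have hlift : (minpoly E x).map (algebraMap E (FN q)) ∈
      Polynomial.lifts (aeval (jF q) : Kbar[X] →ₐ[Kbar] FN q).toRingHom := by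
    rw [Polynomial.lifts_iff_coeff_lifts]
    intro i
    rw [coeff_map]
    have h := coeff_minpoly_mem q (isIntegral_JF q) i
    rw [Algebra.adjoin_singleton_eq_range_aeval] at h
    exact h
  obtain ⟨P, hP, hdeg, hPm⟩ := Polynomial.lifts_and_natDegree_eq_and_monic hlift hmonic
  refine ⟨P, hPm, ?_, ?_⟩
  · rw [hdeg, (minpoly.monic hint).natDegree_map, ← hfr]
    exact minpoly.natDegree_le x
  · rw [← eval_map, hP, eval_map]
    exact minpoly.aeval E x

end Fermat.Agent.Lib.ModEq

end
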