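/-
Library ModEq (architect helper254).  MODEQ-1: calculus of `Bdd`, `IntC`.
-/
import Fermat.Agent.Lib.ModEq.Defs
import Fermat.Agent.S24.B.TExp
import Fermat.Agent.S24.B.Points
import Fermat.Agent.GAL.E.Bound

set_option autoImplicit false

noncomputable section

namespace Fermat.Agent.Lib.ModEq

open Polynomial ModularCurve Fermat.Agent.S24

theorem Bdd.mono {m m' : ℤ} (h : m ≤ m') {f : LaurentSeries Kbar} (hf : Bdd m f) : Bdd m' f := by
  intro n hn
  exact hf n (by omega)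

theorem Bdd.zero (m : ℤ) : Bdd m 0 := by
  intro n _
  rfl

theorem Bdd.one : Bdd 0 1 := by
  intro n hn
  rw [HahnSeries.coeff_one, if_neg (by omega)]

theorem Bdd.add {m : ℤ} {f g : LaurentSeries Kbar} (hf : Bdd m f) (hg : Bdd m g) :
    Bdd m (f + g) := by
  intro n hn
  rw [HahnSeries.coeff_add, hf n hn, hg n hn, add_zero]

theorem Bdd.neg {m : ℤ} {f : LaurentSeries Kbar} (hf : Bdd m f) : Bdd m (-f) := by
  intro n hn
  rw [HahnSeries.coeff_neg, hf n hn, neg_zero]

theorem Bdd.sub {m : ℤ} {f g : LaurentSeries Kbar} (hf : Bdd m f) (hg : Bdd m g) :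
    Bdd m (f - g) := by
  intro n hn
  rw [HahnSeries.coeff_sub, hf n hn, hg n hn, sub_zero]

theorem Bdd.mul {m m' : ℤ} {f g : LaurentSeries Kbar} (hf : Bdd m f) (hg : Bdd m' g) :
    Bdd (m + m') (f * g) := by
  intro n hn
  rw [HahnSeries.coeff_mul]
  refine Finset.sum_eq_zero fun ij hij => ?_
  rw [Finset.mem_addAntidiagonal] at hij
  obtain ⟨-, -, hsum⟩ := hij
  by_cases h1 : ij.1 < -m
  · rw [hf _ h1, zero_mul]
  · rw [hg ij.2 (by omega), mul_zero]

/-- the lowest possible coefficient of a product. -/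
theorem Bdd.coeff_mul {m m' : ℤ} {f g : LaurentSeries Kbar} (hf : Bdd m f) (hg : Bdd m' g) :
    (f * g).coeff (-(m + m')) = f.coeff (-m) * g.coeff (-m') := by
  rw [HahnSeries.coeff_mul]
  rw [Finset.sum_eq_single ((-m, -m') : ℤ × ℤ)]
  · intro ij hij hne
    rw [Finset.mem_addAntidiagonal] at hij
    obtain ⟨-, -, hsum⟩ := hij
    by_cases h1 : ij.1 < -m
    · rw [hf _ h1, zero_mul]
    · by_cases h2 : ij.2 < -m'
      · rw [hg _ h2, mul_zero]
      · exfalso
        apply hne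
        apply Prod.ext
        · show ij.1 = -m
          omega
        · show ij.2 = -m'
          omega
  · intro hnot
    rw [Finset.mem_addAntidiagonal] at hnot
    by_contra hcon
    apply hnot
    refine ⟨?_, ?_, by ring⟩
    · show f.coeff (-m) ≠ 0
      exact left_ne_zero_of_mul hcon
    · show g.coeff (-m') ≠ 0
      exact right_ne_zero_of_mul hcon

theorem IntC.zero : IntC 0 := by
  intro n
  exact isIntegral_zero

theorem IntC.one : IntC 1 := by
  intro n
  rw [HahnSeries.coeff_one]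
  split_ifs
  · exact isIntegral_one
  · exact isIntegral_zero

theorem IntC.add {f g : LaurentSeries Kbar} (hf : IntC f) (hg : IntC g) : IntC (f + g) := by
  intro n
  rw [HahnSeries.coeff_add]
  exact (hf n).add (hg n)

theorem IntC.neg {f : LaurentSeries Kbar} (hf : IntC f) : IntC (-f) := by
  intro n
  rw [HahnSeries.coeff_neg]
  exact (hf n).neg

theorem IntC.sub {f g : LaurentSeries Kbar} (hf : IntC f) (hg : IntC g) : IntC (f - g) := by
  intro n
  rw [HahnSeries.coeff_sub]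
  exact (hf n).sub (hg n)

theorem IntC.mul {f g : LaurentSeries Kbar} (hf : IntC f) (hg : IntC g) : IntC (f * g) := by
  intro n
  rw [HahnSeries.coeff_mul]
  exact IsIntegral.sum _ fun ij _ => (hf _).mul (hg _)

theorem intC_Jser (d : ℕ) [NeZero d] : IntC (Jser d) := by
  intro n
  obtain ⟨k, hk⟩ := GAL.E.exists_int_coeff_Jser d n
  rw [hk]
  exact isIntegral_algebraMap (R := ℤ) (A := Kbar) (x := k)

theorem IntC.twist {f : LaurentSeries Kbar} (hf : IntC f) {ζ : Kbarˣ} {n : ℕ} (hn : n ≠ 0)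
    (hζ : ζ ^ n = 1) : IntC (B.twist ζ f) := by
  intro k
  rw [B.twist_coeff]
  refine IsIntegral.mul ?_ (hf k)
  apply IsIntegral.of_pow (Nat.pos_of_ne_zero hn)
  have : (((ζ ^ k : Kbarˣ) : Kbar)) ^ n = 1 := by
    rw [← Units.val_pow_eq_pow_val, ← zpow_natCast, ← zpow_mul, mul_comm, zpow_mul, zpow_natCast,
      hζ, one_zpow, Units.val_one]
  rw [this]
  exact isIntegral_one

theorem bdd_Jser (d : ℕ) [NeZero d] : Bdd d (Jser d) := by
  intro n hn
  rw [B.Jser_eq_qExpand]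
  by_cases hd : (d : ℤ) ∣ n
  · obtain ⟨k, rfl⟩ := hd
    rw [qExpand_coeff_mul]
    apply B.Jser_one_coeff_of_lt
    have hd0 : (0 : ℤ) < d := by exact_mod_cast Nat.pos_of_ne_zero (NeZero.ne d)
    by_contra hk
    rw [not_lt] at hk
    have : (d : ℤ) * (-1) ≤ d * k := mul_le_mul_of_nonneg_left hk hd0.le
    omega
  · exact qExpand_coeff_of_not_dvd _ _ hd

theorem coeff_Jser_neg (d : ℕ) [NeZero d] : (Jser d).coeff (-(d : ℤ)) = 1 := by
  rw [B.Jser_eq_qExpand, show (-(d : ℤ)) = (d : ℤ) * (-1) by ring, qExpand_coeff_mul,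
    B.Jser_one_coeff_neg_one]

theorem Bdd.twist {m : ℤ} {f : LaurentSeries Kbar} (hf : Bdd m f) (ζ : Kbarˣ) :
    Bdd m (B.twist ζ f) := by
  intro n hn
  rw [B.twist_coeff, hf n hn, mul_zero]

/-- `f(ζ ^ q s ^ q) = f(s ^ q)`. -/
theorem twist_qExpand (q : ℕ) [NeZero q] {ζ : Kbarˣ} (hζ : ζ ^ q = 1) (f : LaurentSeries Kbar) :
    B.twist ζ (qExpand Kbar q f) = qExpand Kbar q f := by
  ext n
  rw [B.twist_coeff]
  by_cases hd : (q : ℤ) ∣ n
  · obtain ⟨k, rfl⟩ := hd
    rw [zpow_mul, zpow_natCast, hζ, one_zpow, Units.val_one, one_mul]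
  · rw [qExpand_coeff_of_not_dvd _ _ hd, mul_zero]

end Fermat.Agent.Lib.ModEq

end
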