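/-
Library ModEq (architect helper254).  MODEQ-3a: the coefficients of `Phi0`.  (proofs: helper157)
-/
import Fermat.Agent.Lib.ModEq.Calc

set_option autoImplicit false

noncomputable section

namespace Fermat.Agent.Lib.ModEq

open Polynomial ModularCurve Fermat.Agent.S24

theorem monic_Phi0 (q : ℕ) (ζ : Kbarˣ) : (Phi0 q ζ).Monic :=
  monic_prod_of_monic _ _ fun _ _ => monic_X_sub_C _

theorem natDegree_Phi0 (q : ℕ) (ζ : Kbarˣ) : (Phi0 q ζ).natDegree = q := by
  unfold Phi0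
  rw [natDegree_finsetProd_X_sub_C_eq_card, Finset.card_range]

private theorem Phi0_succ (n : ℕ) (ζ : Kbarˣ) :
    Phi0 (n + 1) ζ = Phi0 n ζ * (X - C (B.twist (ζ ^ n) (Jser 1))) := by
  unfold Phi0
  rw [Finset.prod_range_succ]

private theorem coeff_zero_Phi0_succ (n : ℕ) (ζ : Kbarˣ) :
    (Phi0 (n + 1) ζ).coeff 0 = -((Phi0 n ζ).coeff 0 * B.twist (ζ ^ n) (Jser 1)) := by
  rw [Phi0_succ, mul_sub, coeff_sub, coeff_mul_C, mul_coeff_zero, coeff_X_zero, mul_zero, zero_sub]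

private theorem coeff_succ_Phi0_succ (n i : ℕ) (ζ : Kbarˣ) :
    (Phi0 (n + 1) ζ).coeff (i + 1) =
      (Phi0 n ζ).coeff i - (Phi0 n ζ).coeff (i + 1) * B.twist (ζ ^ n) (Jser 1) := by
  rw [Phi0_succ, mul_sub, coeff_sub, coeff_mul_C, coeff_mul_X]

private theorem bdd_root (ξ : Kbarˣ) : Bdd 1 (B.twist ξ (Jser 1)) := by
  have h := (bdd_Jser 1).twist ξ
  simpa using h

/-- the coefficient of `X ^ i` in `∏_{b < q} (X - r_b)`, `r_b` with a simple pole. -/
theorem bdd_coeff_Phi0 (q : ℕ) (ζ : Kbarˣ) (i : ℕ) (hi : i ≤ q) :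
    Bdd ((q : ℤ) - i) ((Phi0 q ζ).coeff i) := by
  induction q generalizing i with
  | zero =>
    obtain rfl : i = 0 := by omega
    have : (Phi0 0 ζ).coeff 0 = 1 := by simp [Phi0]
    rw [this]
    simpa using Bdd.one
  | succ n ih =>
    cases i with
    | zero =>
      rw [coeff_zero_Phi0_succ]
      have h := ((ih 0 (Nat.zero_le n)).mul (bdd_root (ζ ^ n))).neg
      refine h.mono ?_
      push_cast
      omega
    | succ j =>
      rw [coeff_succ_Phi0_succ]
      have h1 : Bdd (((n + 1 : ℕ) : ℤ) - ((j + 1 : ℕ) : ℤ)) ((Phi0 n ζ).coeff j) := by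
        refine (ih j (by omega)).mono ?_
        push_cast
        omega
      refine h1.sub ?_
      rcases Nat.lt_or_ge n (j + 1) with hlt | hge
      · rw [coeff_eq_zero_of_natDegree_lt (by rw [natDegree_Phi0]; exact hlt), zero_mul]
        exact Bdd.zero _
      · refine ((ih (j + 1) hge).mul (bdd_root (ζ ^ n))).mono ?_
        push_cast
        omega

private theorem intC_root {q : ℕ} (hq : q ≠ 0) {ζ : Kbarˣ} (hζ : ζ ^ q = 1) (n : ℕ) :
    IntC (B.twist (ζ ^ n) (Jser 1)) :=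
  (intC_Jser 1).twist hq (by rw [← pow_mul, mul_comm, pow_mul, hζ, one_pow])

private theorem intC_coeff_Phi0_aux {q : ℕ} (hq : q ≠ 0) {ζ : Kbarˣ} (hζ : ζ ^ q = 1) (n i : ℕ) :
    IntC ((Phi0 n ζ).coeff i) := by
  induction n generalizing i with
  | zero =>
    have : Phi0 0 ζ = 1 := by simp [Phi0]
    rw [this, coeff_one]
    split_ifs
    · exact IntC.one
    · exact IntC.zero
  | succ n ih =>
    cases i with
    | zero =>
      rw [coeff_zero_Phi0_succ]
      exact ((ih 0).mul (intC_root hq hζ n)).neg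
    | succ j =>
      rw [coeff_succ_Phi0_succ]
      exact (ih j).sub ((ih (j + 1)).mul (intC_root hq hζ n))

theorem intC_coeff_Phi0 (q : ℕ) (hq : q ≠ 0) (ζ : Kbarˣ) (hζ : ζ ^ q = 1) (i : ℕ) :
    IntC ((Phi0 q ζ).coeff i) :=
  intC_coeff_Phi0_aux hq hζ q i

private theorem coeff_root (ξ : Kbarˣ) :
    (B.twist ξ (Jser 1)).coeff (-1) = ((ξ⁻¹ : Kbarˣ) : Kbar) := by
  rw [B.twist_coeff, B.Jser_one_coeff_neg_one, mul_one, zpow_neg_one]

private theorem coeff_coeff_zero_Phi0_aux (n : ℕ) (ζ : Kbarˣ) :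
    ((Phi0 n ζ).coeff 0).coeff (-(n : ℤ)) =
      (-1) ^ n * (((ζ ^ (∑ b ∈ Finset.range n, b))⁻¹ : Kbarˣ) : Kbar) := by
  induction n with
  | zero => simp [Phi0]
  | succ n ih =>
    have h0 := bdd_coeff_Phi0 n ζ 0 (Nat.zero_le n)
    have h0' : Bdd (n : ℤ) ((Phi0 n ζ).coeff 0) := by simpa using h0
    have h := h0'.coeff_mul (bdd_root (ζ ^ n))
    have e : (-((n + 1 : ℕ) : ℤ)) = -((n : ℤ) + 1) := by push_cast; ring
    rw [coeff_zero_Phi0_succ, HahnSeries.coeff_neg, e, h, ih, coeff_root, Finset.sum_range_succ,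
      pow_add ζ, mul_inv, Units.val_mul, pow_succ]
    ring

/-- `∏_{b < q} (- ζ ^ (- b)) = -1`. -/
theorem coeff_coeff_zero_Phi0 (q : ℕ) (hq : q.Prime) (ζ : Kbarˣ) (hζ : IsPrimitiveRoot ζ q) :
    ((Phi0 q ζ).coeff 0).coeff (-(q : ℤ)) = -1 := by
  rw [coeff_coeff_zero_Phi0_aux]
  rcases hq.eq_two_or_odd' with rfl | hodd
  · have h2 : (ζ : Kbar) = -1 := (IsPrimitiveRoot.coe_units_iff.mpr hζ).eq_neg_one_of_two_right
    have h3 : ζ = -1 := Units.ext (by rw [h2]; simp)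
    rw [h3]
    simp [Finset.sum_range_succ]
  · obtain ⟨k, hk⟩ := hodd
    have hS : ∑ b ∈ Finset.range q, b = q * k := by
      have h := Finset.sum_range_id_mul_two q
      have h1 : q - 1 = 2 * k := by omega
      rw [h1] at h
      have h2 : (∑ b ∈ Finset.range q, b) * 2 = (q * k) * 2 := by rw [h]; ring
      exact Nat.eq_of_mul_eq_mul_right (by norm_num) h2
    rw [hS, pow_mul, hζ.pow_eq_one, one_pow, inv_one, Units.val_one, mul_one,
      Odd.neg_one_pow ⟨k, hk⟩]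

end Fermat.Agent.Lib.ModEq

end
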