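/-
Library ModEq (architect helper254).  MODEQ-3b: the coefficients of `Phis`.
-/
import Fermat.Agent.Lib.ModEq.Roots0

set_option autoImplicit false

noncomputable section

namespace Fermat.Agent.Lib.ModEq

open Polynomial ModularCurve Fermat.Agent.S24

theorem monic_Phis (q : ℕ) [NeZero q] (ζ : Kbarˣ) : (Phis q ζ).Monic :=
  (monic_X_sub_C _).mul (monic_Phi0 q ζ)

theorem natDegree_Phis (q : ℕ) [NeZero q] (ζ : Kbarˣ) : (Phis q ζ).natDegree = q + 1 := by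
  rw [Phis, (monic_X_sub_C _).natDegree_mul (monic_Phi0 q ζ), natDegree_X_sub_C, natDegree_Phi0,
    add_comm]

private theorem coeff_zero_Phis (q : ℕ) [NeZero q] (ζ : Kbarˣ) :
    (Phis q ζ).coeff 0 = -(Jser (q * q) * (Phi0 q ζ).coeff 0) := by
  rw [Phis, sub_mul, coeff_sub, coeff_C_mul, mul_coeff_zero, coeff_X_zero, zero_mul, zero_sub]

private theorem coeff_succ_Phis (q : ℕ) [NeZero q] (ζ : Kbarˣ) (i : ℕ) :
    (Phis q ζ).coeff (i + 1) = (Phi0 q ζ).coeff i - Jser (q * q) * (Phi0 q ζ).coeff (i + 1) := by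
  rw [Phis, sub_mul, coeff_sub, coeff_C_mul, coeff_X_mul]

private theorem bdd_Jser_sq (q : ℕ) [NeZero q] : Bdd ((q : ℤ) * q) (Jser (q * q)) := by
  have := bdd_Jser (q * q)
  rwa [Nat.cast_mul] at this

private theorem coeff_Jser_sq (q : ℕ) [NeZero q] : (Jser (q * q)).coeff (-((q : ℤ) * q)) = 1 := by
  have := coeff_Jser_neg (q * q)
  rwa [Nat.cast_mul] at this

theorem bdd_coeff_Phis (q : ℕ) [NeZero q] (ζ : Kbarˣ) (i : ℕ) (hi : i ≤ q) :
    Bdd ((q : ℤ) * q + q - i) ((Phis q ζ).coeff i) := by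
  have hmul : Bdd ((q : ℤ) * q + q - i) (Jser (q * q) * (Phi0 q ζ).coeff i) := by
    have := (bdd_Jser_sq q).mul (bdd_coeff_Phi0 q ζ i hi)
    rwa [← add_sub_assoc] at this
  cases i with
  | zero =>
    rw [coeff_zero_Phis]
    exact hmul.neg
  | succ i =>
    rw [coeff_succ_Phis]
    refine Bdd.sub (Bdd.mono ?_ (bdd_coeff_Phi0 q ζ i (by omega))) hmul
    have hq : (1 : ℤ) ≤ q := by exact_mod_cast Nat.one_le_iff_ne_zero.mpr (NeZero.ne q)
    push_cast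
    nlinarith

theorem intC_coeff_Phis (q : ℕ) [NeZero q] (ζ : Kbarˣ) (hζ : ζ ^ q = 1) (i : ℕ) :
    IntC ((Phis q ζ).coeff i) := by
  have h := intC_coeff_Phi0 q (NeZero.ne q) ζ hζ
  cases i with
  | zero =>
    rw [coeff_zero_Phis]
    exact ((intC_Jser _).mul (h 0)).neg
  | succ i =>
    rw [coeff_succ_Phis]
    exact (h i).sub ((intC_Jser _).mul (h (i + 1)))

theorem coeff_coeff_zero_Phis (q : ℕ) [NeZero q] (hq : q.Prime) (ζ : Kbarˣ)
    (hζ : IsPrimitiveRoot ζ q) :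
    ((Phis q ζ).coeff 0).coeff (-((q : ℤ) * (q + 1))) = 1 := by
  have h0 : Bdd (q : ℤ) ((Phi0 q ζ).coeff 0) := by
    have := bdd_coeff_Phi0 q ζ 0 (Nat.zero_le q)
    simpa using this
  have h1 := (bdd_Jser_sq q).coeff_mul h0
  rw [coeff_Jser_sq, coeff_coeff_zero_Phi0 q hq ζ hζ, one_mul] at h1
  rw [coeff_zero_Phis, HahnSeries.coeff_neg, mul_add, mul_one, h1, neg_neg]

theorem coeff_coeff_q_Phis (q : ℕ) [NeZero q] (hq : q.Prime) (ζ : Kbarˣ) :
    ((Phis q ζ).coeff q).coeff (-((q : ℤ) * q)) = -1 := by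
  obtain ⟨k, rfl⟩ : ∃ k, q = k + 1 := ⟨q - 1, by have := hq.pos; omega⟩
  have h1 : (Phi0 (k + 1) ζ).coeff (k + 1) = 1 := by
    have := monic_Phi0 (k + 1) ζ
    rwa [Monic, leadingCoeff, natDegree_Phi0] at this
  have h2 : Bdd 1 ((Phi0 (k + 1) ζ).coeff k) := by
    have := bdd_coeff_Phi0 (k + 1) ζ k (Nat.le_succ k)
    have h3 : (((k + 1 : ℕ) : ℤ) - k) = 1 := by push_cast; ring
    rwa [h3] at this
  have hk : 1 ≤ k := by have := hq.two_le; omega
  have h4 : ((Phi0 (k + 1) ζ).coeff k).coeff (-(((k + 1 : ℕ) : ℤ) * ((k + 1 : ℕ) : ℤ))) = 0 := by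
    apply h2
    have : (1 : ℤ) ≤ k := by exact_mod_cast hk
    push_cast
    nlinarith
  rw [coeff_succ_Phis, h1, mul_one, HahnSeries.coeff_sub, h4, coeff_Jser_sq, zero_sub]

end Fermat.Agent.Lib.ModEq

end
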