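/-
Library ModEq (architect helper254).  MODEQ-3c: the roots are distinct.
-/
import Fermat.Agent.Lib.ModEq.Roots
import Fermat.Agent.S24.B.TExp
import Fermat.Agent.S24.B.Points

set_option autoImplicit false

noncomputable section

namespace Fermat.Agent.Lib.ModEq

open Polynomial ModularCurve Fermat.Agent.S24

private theorem coeff_root_b (ζ : Kbarˣ) (b : ℕ) :
    (B.twist (ζ ^ b) (Jser 1)).coeff (-1) = (((ζ ^ b)⁻¹ : Kbarˣ) : Kbar) := by
  rw [B.twist_coeff, B.Jser_one_coeff_neg_one, mul_one, zpow_neg_one]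

private theorem coeff_root_inf (q : ℕ) [NeZero q] (hq : q.Prime) :
    (Jser (q * q)).coeff (-1) = 0 := by
  rw [B.Jser_eq_qExpand]
  apply qExpand_coeff_of_not_dvd
  intro h
  have h1 : ((q * q : ℕ) : ℤ) ∣ 1 := (dvd_neg.1 h)
  have h2 : (q * q : ℕ) ∣ 1 := by exact_mod_cast h1
  have h3 : q ∣ 1 := dvd_trans (dvd_mul_right q q) h2
  exact hq.one_lt.ne' (Nat.dvd_one.1 h3)

private theorem root_b_injOn (q : ℕ) (ζ : Kbarˣ) (hζ : IsPrimitiveRoot ζ q) :
    Set.InjOn (fun b : ℕ => B.twist (ζ ^ b) (Jser 1)) (Finset.range q : Set ℕ) := by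
  intro b hb c hc h
  have h1 := congrArg (fun f : LaurentSeries Kbar => f.coeff (-1)) h
  simp only [coeff_root_b] at h1
  have h2 : (ζ ^ b)⁻¹ = (ζ ^ c)⁻¹ := Units.ext h1
  exact hζ.pow_inj (Finset.mem_range.1 hb) (Finset.mem_range.1 hc) (inv_injective h2)

private theorem root_inf_ne (q : ℕ) [NeZero q] (hq : q.Prime) (ζ : Kbarˣ) (b : ℕ) :
    Jser (q * q) ≠ B.twist (ζ ^ b) (Jser 1) := by
  intro h
  have h1 := congrArg (fun f : LaurentSeries Kbar => f.coeff (-1)) h
  simp only [coeff_root_b, coeff_root_inf q hq] at h1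
  exact (Units.ne_zero _) h1.symm

/-- the `q + 1` roots are pairwise distinct: a monic polynomial of degree `≤ q + 1` which vanishes
at all of them is `Phis`. -/
theorem eq_Phis_of_roots (q : ℕ) [NeZero q] (hq : q.Prime) (ζ : Kbarˣ) (hζ : IsPrimitiveRoot ζ q)
    (P : (LaurentSeries Kbar)[X]) (hP : P.Monic) (hdeg : P.natDegree ≤ q + 1)
    (hinf : P.eval (Jser (q * q)) = 0)
    (hb : ∀ b < q, P.eval (B.twist (ζ ^ b) (Jser 1)) = 0) : P = Phis q ζ := by
  have h0 : Phi0 q ζ ∣ P := by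
    unfold Phi0
    apply Finset.prod_dvd_of_coprime
    · intro b hb' c hc' hbc
      apply Polynomial.isCoprime_X_sub_C_of_isUnit_sub
      apply IsUnit.mk0
      rw [sub_ne_zero]
      exact fun h => hbc (root_b_injOn q ζ hζ hb' hc' h)
    · intro b hb'
      exact Polynomial.dvd_iff_isRoot.2 (hb b (Finset.mem_range.1 hb'))
  have h1 : (X - C (Jser (q * q))) ∣ P := Polynomial.dvd_iff_isRoot.2 hinf
  have hcop : IsCoprime (X - C (Jser (q * q))) (Phi0 q ζ) := by
    unfold Phi0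
    apply IsCoprime.prod_right
    intro b _
    apply Polynomial.isCoprime_X_sub_C_of_isUnit_sub
    apply IsUnit.mk0
    rw [sub_ne_zero]
    exact root_inf_ne q hq ζ b
  have h2 : Phis q ζ ∣ P := hcop.mul_dvd h1 h0
  exact Polynomial.eq_of_monic_of_dvd_of_natDegree_le (monic_Phis q ζ) hP h2
    (by rw [natDegree_Phis]; exact hdeg)

end Fermat.Agent.Lib.ModEq

end
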