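/-
Library ModEq (architect helper254).  MODEQ-4b: the embeddings of `FN q` in `ℚ̄((s))`, the symmetry.
(proofs: helper185)
-/
import Fermat.Agent.Lib.ModEq.Calc
import Fermat.Agent.S36.Mod.EmbBar.AL

set_option autoImplicit false

noncomputable section

namespace Fermat.Agent.Lib.ModEq

open Polynomial ModularCurve Fermat.Agent.S24

/-- `twist ζ` as a `ℚ̄`-algebra homomorphism. -/
def twistAlgHom (ζ : Kbarˣ) : LaurentSeries Kbar →ₐ[Kbar] LaurentSeries Kbar :=
  { B.twist ζ with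
    commutes' := fun c => by
      show B.twist ζ (algebraMap Kbar (LaurentSeries Kbar) c) = _
      rw [algebraMap_laurentSeries_eq_single]
      exact B.twist_C ζ c }

theorem twistAlgHom_apply (ζ : Kbarˣ) (f : LaurentSeries Kbar) :
    twistAlgHom ζ f = B.twist ζ f := rfl

/-- the Atkin-Lehner involution of `FN q` exchanges `j` and `j_q`. -/
theorem exists_swap (q : ℕ) [NeZero q] :
    ∃ w : FN q →ₐ[Kbar] FN q, w (jF q) = JF q q dvd_rfl ∧ w (JF q q dvd_rfl) = jF q := by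
  obtain ⟨w, hw⟩ := S36.Mod.exists_atkinLehner_bar' q 1 q (one_mul q).symm (Nat.coprime_one_left q)
  refine ⟨w, ?_, ?_⟩
  · have h := hw 1 1 q (dvd_refl 1) (one_mul q) (by simp) (by simp)
    rw [S36.Mod.AL.JF_congr (one_mul 1) _ (one_dvd q),
      S36.Mod.AL.JF_congr (one_mul q) _ dvd_rfl] at h
    exact h
  · have h := hw 1 q 1 (dvd_refl 1) (mul_one q) (by simp) (by simp)
    rw [S36.Mod.AL.JF_congr (one_mul 1) _ (one_dvd q),
      S36.Mod.AL.JF_congr (one_mul q) _ dvd_rfl] at h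
    exact h

/-- the embeddings `f ↦ (w f)(ζ s)` and `f ↦ f(s ^ q)` of `FN q` in `ℚ̄((s))`. -/
theorem exists_embeddings (q : ℕ) [NeZero q] (hq : q.Prime) (ζ : Kbarˣ) (hζ : ζ ^ q = 1) :
    (∃ σ : FN q →ₐ[Kbar] LaurentSeries Kbar, σ (jF q) = Jser q ∧
      σ (JF q q dvd_rfl) = Jser (q * q)) ∧
    (∃ σ : FN q →ₐ[Kbar] LaurentSeries Kbar, σ (jF q) = Jser q ∧
      σ (JF q q dvd_rfl) = B.twist ζ (Jser 1)) := by
  refine ⟨⟨S36.Mod.AL.phiM q q, ?_, ?_⟩, ?_⟩
  · show qExpand Kbar q (Jser 1) = Jser q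
    exact (B.Jser_eq_qExpand q).symm
  · show qExpand Kbar q (Jser q) = Jser (q * q)
    rw [B.Jser_eq_qExpand q, qExpand_qExpand, ← B.Jser_eq_qExpand]
  · obtain ⟨w, hw1, hw2⟩ := exists_swap q
    refine ⟨(twistAlgHom ζ).comp ((modularFunctionFieldBar q).val.comp w), ?_, ?_⟩
    · show B.twist ζ ((w (jF q) : FN q) : LaurentSeries Kbar) = Jser q
      rw [hw1]
      show B.twist ζ (Jser q) = Jser q
      rw [B.Jser_eq_qExpand q, twist_qExpand q hζ]
    · show B.twist ζ ((w (JF q q dvd_rfl) : FN q) : LaurentSeries Kbar) = B.twist ζ (Jser 1)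
      rw [hw2]
      rfl

/-- algebra homomorphisms commute with the evaluation of polynomials in two variables. -/
theorem map_eval₂_aeval {A A' : Type*} [CommRing A] [CommRing A'] [Algebra Kbar A]
    [Algebra Kbar A'] (f : A →ₐ[Kbar] A') (P : Kbar[X][X]) (x y : A) :
    f (P.eval₂ (aeval x : Kbar[X] →ₐ[Kbar] A).toRingHom y) =
      P.eval₂ (aeval (f x) : Kbar[X] →ₐ[Kbar] A').toRingHom (f y) := by
  have h := Polynomial.hom_eval₂ P (aeval x : Kbar[X] →ₐ[Kbar] A).toRingHom f.toRingHom y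
  have h2 : f.toRingHom.comp (aeval x : Kbar[X] →ₐ[Kbar] A).toRingHom =
      (aeval (f x) : Kbar[X] →ₐ[Kbar] A').toRingHom := by
    rw [aeval_algHom]
    rfl
  rw [h2] at h
  exact h

/-- the symmetry `j ↔ j_q`. -/
theorem eval₂_swap (q : ℕ) [NeZero q] (hq : q.Prime) (P : Kbar[X][X])
    (h : P.eval₂ (aeval (Jser 1) : Kbar[X] →ₐ[Kbar] LaurentSeries Kbar).toRingHom (Jser q) = 0) :
    P.eval₂ (aeval (Jser q) : Kbar[X] →ₐ[Kbar] LaurentSeries Kbar).toRingHom (Jser 1) = 0 := by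
  obtain ⟨w, hw1, hw2⟩ := exists_swap q
  have h1 : P.eval₂ (aeval (jF q) : Kbar[X] →ₐ[Kbar] FN q).toRingHom (JF q q dvd_rfl) = 0 := by
    apply (modularFunctionFieldBar q).val.toRingHom.injective
    rw [map_zero]
    exact (map_eval₂_aeval (modularFunctionFieldBar q).val P (jF q) (JF q q dvd_rfl)).trans h
  have h2 := map_eval₂_aeval w P (jF q) (JF q q dvd_rfl)
  rw [h1, map_zero, hw1, hw2] at h2
  have h3 := map_eval₂_aeval (modularFunctionFieldBar q).val P (JF q q dvd_rfl) (jF q)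
  rw [← h2, map_zero] at h3
  exact h3.symm

end Fermat.Agent.Lib.ModEq

end
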