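/-
Library ModEq (architect helper254).  MODEQ-4c: the factorisation of the minimal polynomial.
(task 2100, helper181)
-/
import Fermat.Agent.Lib.ModEq.Integral
import Fermat.Agent.Lib.ModEq.Emb
import Fermat.Agent.Lib.ModEq.Distinct

set_option autoImplicit false

noncomputable section

namespace Fermat.Agent.Lib.ModEq

open Polynomial ModularCurve Fermat.Agent.S24

/-- transport of a relation along an embedding. -/
private theorem eval_map_of_algHom {A B : Type*} [CommRing A] [Algebra Kbar A] [CommRing B]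
    [Algebra Kbar B] (σ : A →ₐ[Kbar] B) (P : Kbar[X][X]) (j x : A) :
    (P.map (aeval (σ j) : Kbar[X] →ₐ[Kbar] B).toRingHom).eval (σ x) =
      σ (P.eval₂ (aeval j : Kbar[X] →ₐ[Kbar] A).toRingHom x) := by
  have h1 : (σ : A →+* B).comp (aeval j : Kbar[X] →ₐ[Kbar] A).toRingHom =
      (aeval (σ j) : Kbar[X] →ₐ[Kbar] B).toRingHom := by
    ext p
    · simp
    · simp
  have h2 := Polynomial.hom_eval₂ P (aeval j : Kbar[X] →ₐ[Kbar] A).toRingHom (σ : A →+* B) x
  rw [eval_map, ← h1]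
  exact h2.symm

/-- a relation in `FN q` vanishes at the `q + 1` roots. -/
private theorem eval_roots (q : ℕ) [NeZero q] (hq : q.Prime) (ζ : Kbarˣ)
    (hζ : IsPrimitiveRoot ζ q) (P : Kbar[X][X])
    (h : P.eval₂ (aeval (jF q) : Kbar[X] →ₐ[Kbar] FN q).toRingHom (JF q q dvd_rfl) = 0) :
    (P.map (aeval (Jser q) : Kbar[X] →ₐ[Kbar] LaurentSeries Kbar).toRingHom).eval
        (Jser (q * q)) = 0 ∧
      ∀ b < q, (P.map (aeval (Jser q) : Kbar[X] →ₐ[Kbar] LaurentSeries Kbar).toRingHom).eval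
        (B.twist (ζ ^ b) (Jser 1)) = 0 := by
  constructor
  · obtain ⟨⟨σ, h1, h2⟩, -⟩ := exists_embeddings q hq ζ hζ.pow_eq_one
    rw [← h1, ← h2, eval_map_of_algHom, h, map_zero]
  · intro b _
    have hb : (ζ ^ b) ^ q = 1 := by rw [← pow_mul, mul_comm, pow_mul, hζ.pow_eq_one, one_pow]
    obtain ⟨-, ⟨σ, h1, h2⟩⟩ := exists_embeddings q hq (ζ ^ b) hb
    rw [← h1, ← h2, eval_map_of_algHom, h, map_zero]

/-- relations between the series `j`, `j_q` are relations in `FN q`. -/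
private theorem eval₂_FN_iff (q : ℕ) [NeZero q] (P : Kbar[X][X]) :
    P.eval₂ (aeval (jF q) : Kbar[X] →ₐ[Kbar] FN q).toRingHom (JF q q dvd_rfl) = 0 ↔
      P.eval₂ (aeval (Jser 1) : Kbar[X] →ₐ[Kbar] LaurentSeries Kbar).toRingHom (Jser q) = 0 := by
  have h := eval_map_of_algHom (modularFunctionFieldBar q).val P (jF q) (JF q q dvd_rfl)
  rw [eval_map] at h
  have e1 : (modularFunctionFieldBar q).val (jF q) = Jser 1 := rfl
  have e2 : (modularFunctionFieldBar q).val (JF q q dvd_rfl) = Jser q := rfl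
  rw [e1, e2] at h
  rw [h]
  constructor
  · intro h0
    rw [h0, map_zero]
  · intro h0
    exact (map_eq_zero_iff _ (modularFunctionFieldBar q).val.injective).mp h0

/-- **The factorisation.** -/
theorem exists_poly_eq_Phis (q : ℕ) [NeZero q] (hq : q.Prime) (ζ : Kbarˣ)
    (hζ : IsPrimitiveRoot ζ q) :
    ∃ P : Kbar[X][X], P.map (aeval (Jser q) : Kbar[X] →ₐ[Kbar] LaurentSeries Kbar).toRingHom =
        Phis q ζ ∧
      P.eval₂ (aeval (Jser 1) : Kbar[X] →ₐ[Kbar] LaurentSeries Kbar).toRingHom (Jser q) = 0 := by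
  obtain ⟨P, hm, hdeg, h0⟩ := exists_monic_poly q hq
  obtain ⟨h1, h2⟩ := eval_roots q hq ζ hζ P h0
  exact ⟨P, eq_Phis_of_roots q hq ζ hζ _ (hm.map _) (natDegree_map_le.trans hdeg) h1 h2,
    (eval₂_FN_iff q P).mp h0⟩

private theorem algebraMap_eq_single (c : Kbar) :
    algebraMap Kbar (LaurentSeries Kbar) c = HahnSeries.single 0 c := by
  have h1 : algebraMap Kbar (PowerSeries Kbar) c = PowerSeries.C c := by simp
  rw [HahnSeries.algebraMap_apply', h1, HahnSeries.ofPowerSeries_C]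
  rfl

/-- `j(qτ)` is transcendental. -/
theorem transcendental_Jser (q : ℕ) [NeZero q] : Transcendental Kbar (Jser q) := by
  rw [transcendental_iff]
  intro p hp
  have h1 : aeval (Jser q) p = qExpand Kbar q (aeval (Jser 1) p) := by
    rw [B.Jser_eq_qExpand q, aeval_def, aeval_def, Polynomial.hom_eval₂]
    congr 1
    refine RingHom.ext fun c => ?_
    show _ = qExpand Kbar q (algebraMap Kbar (LaurentSeries Kbar) c)
    rw [algebraMap_eq_single, qExpand_single, mul_zero]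
  rw [h1, map_eq_zero_iff _ (qExpand Kbar q).injective] at hp
  exact (transcendental_iff.mp Formal.transcendental_Jser_one) p hp

/-- a nonzero polynomial of degree `≤ q` in `j(qτ)` with coefficients in `ℚ̄[j]` does not vanish. -/
theorem eq_zero_of_eval₂_eq_zero (q : ℕ) [NeZero q] (hq : q.Prime) (P : Kbar[X][X])
    (hdeg : P.natDegree ≤ q)
    (h : P.eval₂ (aeval (Jser 1) : Kbar[X] →ₐ[Kbar] LaurentSeries Kbar).toRingHom (Jser q) = 0) :
    P = 0 := by
  have hne : NeZero (q : Kbar) := ⟨Nat.cast_ne_zero.mpr (NeZero.ne q)⟩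
  obtain ⟨ζ₀, hζ₀⟩ := HasEnoughRootsOfUnity.exists_primitiveRoot Kbar q
  obtain ⟨ζ, rfl⟩ : ∃ ζ : Kbarˣ, (ζ : Kbar) = ζ₀ := ⟨(hζ₀.isUnit (NeZero.ne q)).unit, rfl⟩
  have hζ : IsPrimitiveRoot ζ q := IsPrimitiveRoot.coe_units_iff.mp hζ₀
  obtain ⟨h1, h2⟩ := eval_roots q hq ζ hζ P ((eval₂_FN_iff q P).mpr h)
  set Q := P.map (aeval (Jser q) : Kbar[X] →ₐ[Kbar] LaurentSeries Kbar).toRingHom with hQ
  have hQdeg : Q.natDegree ≤ q := natDegree_map_le.trans hdeg
  have hlt : Q.degree < (Phis q ζ).degree := by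
    rw [degree_eq_natDegree (monic_Phis q ζ).ne_zero, natDegree_Phis]
    refine lt_of_le_of_lt degree_le_natDegree ?_
    exact_mod_cast Nat.lt_succ_of_le hQdeg
  have hPinf : (Phis q ζ).eval (Jser (q * q)) = 0 := by
    simp [Phis]
  have hPb : ∀ b < q, (Phis q ζ).eval (B.twist (ζ ^ b) (Jser 1)) = 0 := by
    intro b hb
    rw [Phis, eval_mul, Phi0, eval_prod, Finset.prod_eq_zero (Finset.mem_range.mpr hb) (by simp),
      mul_zero]
  have hsum : Phis q ζ + Q = Phis q ζ := by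
    refine eq_Phis_of_roots q hq ζ hζ _ ((monic_Phis q ζ).add_of_left hlt) ?_ ?_ ?_
    · refine (natDegree_add_le _ _).trans (max_le (natDegree_Phis q ζ).le (hQdeg.trans ?_))
      omega
    · rw [eval_add, hPinf, h1, add_zero]
    · intro b hb
      rw [eval_add, hPb b hb, h2 b hb, add_zero]
  have hQ0 : Q = 0 := by simpa using hsum
  have hinj : Function.Injective
      (aeval (Jser q) : Kbar[X] →ₐ[Kbar] LaurentSeries Kbar).toRingHom :=
    transcendental_iff_injective.mp (transcendental_Jser q)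
  exact (Polynomial.map_eq_zero_iff hinj).mp hQ0

end Fermat.Agent.Lib.ModEq

end
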