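/-
Library ModEq (architect helper254).  MODEQ-2: polynomials in `j(s ^ d)`.  (proofs: helper129)
-/
import Fermat.Agent.Lib.ModEq.Calc
import Fermat.Agent.S24.Formal

set_option autoImplicit false

noncomputable section

namespace Fermat.Agent.Lib.ModEq

open Polynomial ModularCurve Fermat.Agent.S24

/-- the powers of `j(s ^ d)`: pole order and leading coefficient. -/
theorem PolyJ.bdd_pow (d : ℕ) [NeZero d] (k : ℕ) :
    Bdd ((d : ℤ) * k) (Jser d ^ k) ∧ (Jser d ^ k).coeff (-((d : ℤ) * k)) = 1 := by
  induction k with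
  | zero =>
    refine ⟨by simpa using Bdd.one, ?_⟩
    simp
  | succ k ih =>
    have e : (d : ℤ) * ((k + 1 : ℕ) : ℤ) = (d : ℤ) * k + d := by push_cast; ring
    rw [e, pow_succ]
    exact ⟨ih.1.mul (bdd_Jser d), by rw [ih.1.coeff_mul (bdd_Jser d), ih.2, coeff_Jser_neg, one_mul]⟩

theorem PolyJ.intC_pow (d : ℕ) [NeZero d] (k : ℕ) : IntC (Jser d ^ k) := by
  induction k with
  | zero => simpa using IntC.one
  | succ k ih =>
    rw [pow_succ]
    exact ih.mul (intC_Jser d)

theorem PolyJ.coeff_aeval (d : ℕ) [NeZero d] (p : Kbar[X]) (m : ℕ) (h : p.natDegree ≤ m) (n : ℤ) :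
    (aeval (Jser d) p).coeff n = ∑ i ∈ Finset.range (m + 1), p.coeff i * (Jser d ^ i).coeff n := by
  rw [aeval_eq_sum_range' (Nat.lt_succ_of_le h), HahnSeries.coeff_sum]
  refine Finset.sum_congr rfl fun i _ => ?_
  rw [Algebra.smul_def, Formal.coeff_algebraMap_mul_laurent]

/-- the top coefficient. -/
theorem coeff_aeval_Jser (d : ℕ) [NeZero d] (p : Kbar[X]) (m : ℕ) (h : p.natDegree ≤ m) :
    (aeval (Jser d) p).coeff (-((d : ℤ) * m)) = p.coeff m := by
  rw [PolyJ.coeff_aeval d p m h, Finset.sum_range_succ, (PolyJ.bdd_pow d m).2, mul_one,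
    Finset.sum_eq_zero, zero_add]
  intro i hi
  have hd : (0 : ℤ) < d := by exact_mod_cast Nat.pos_of_ne_zero (NeZero.ne d)
  have hi' : (i : ℤ) < m := by exact_mod_cast Finset.mem_range.1 hi
  rw [(PolyJ.bdd_pow d i).1 _ (by nlinarith), mul_zero]

/-- degree from the order of the pole. -/
theorem natDegree_le_of_bdd (d : ℕ) [NeZero d] (p : Kbar[X]) (m : ℕ)
    (h : Bdd (d * m + (d - 1)) (aeval (Jser d) p)) : p.natDegree ≤ m := by
  by_contra hlt
  rw [not_le] at hlt
  have hp : p ≠ 0 := by
    rintro rfl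
    simp at hlt
  have h1 := coeff_aeval_Jser d p p.natDegree le_rfl
  have hd : (0 : ℤ) < d := by exact_mod_cast Nat.pos_of_ne_zero (NeZero.ne d)
  have hlt' : (m : ℤ) + 1 ≤ p.natDegree := by exact_mod_cast hlt
  rw [h _ (by nlinarith)] at h1
  exact leadingCoeff_ne_zero.2 hp h1.symm

/-- integrality of the coefficients (triangular system, induction on the degree). -/
theorem isIntegral_coeff_of_intC (d : ℕ) [NeZero d] (p : Kbar[X]) (h : IntC (aeval (Jser d) p))
    (i : ℕ) : IsIntegral ℤ (p.coeff i) := by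
  have key : ∀ n : ℕ, ∀ p : Kbar[X], (∀ N, n ≤ N → p.coeff N = 0) → IntC (aeval (Jser d) p) →
      ∀ i, IsIntegral ℤ (p.coeff i) := by
    intro n
    induction n with
    | zero =>
      intro p hp _ i
      rw [hp i (Nat.zero_le i)]
      exact isIntegral_zero
    | succ n ih =>
      intro p hp hI i
      have hdeg : p.natDegree ≤ n :=
        natDegree_le_iff_coeff_eq_zero.2 fun N hN => hp N hN
      have ha : IsIntegral ℤ (p.coeff n) := by
        rw [← coeff_aeval_Jser d p n hdeg]
        exact hI _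
      have hI' : IntC (aeval (Jser d) (p - C (p.coeff n) * X ^ n)) := by
        rw [map_sub, map_mul, map_pow, aeval_X, aeval_C]
        refine hI.sub fun k => ?_
        rw [Formal.coeff_algebraMap_mul_laurent]
        exact ha.mul (PolyJ.intC_pow d n k)
      have h0 : ∀ N, n ≤ N → (p - C (p.coeff n) * X ^ n).coeff N = 0 := by
        intro N hN
        rw [coeff_sub, coeff_C_mul, coeff_X_pow]
        rcases Nat.eq_or_lt_of_le hN with rfl | hlt
        · simp
        · rw [hp N hlt, if_neg (by omega)]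
          simp
      have h1 := ih _ h0 hI' i
      rw [coeff_sub, coeff_C_mul, coeff_X_pow] at h1
      have e : p.coeff i = (p.coeff i - p.coeff n * (if i = n then 1 else 0)) +
          p.coeff n * (if i = n then 1 else 0) := by ring
      rw [e]
      refine h1.add (ha.mul ?_)
      split_ifs
      · exact isIntegral_one
      · exact isIntegral_zero
  exact key (p.natDegree + 1) p (fun N hN => coeff_eq_zero_of_natDegree_lt (by omega)) h i

end Fermat.Agent.Lib.ModEq

end
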