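/-
Library ModEq (architect helper254).  MODEQ-5: the shape of the equation over `ℚ̄`.
-/
import Fermat.Agent.Lib.ModEq.MinPoly
import Fermat.Agent.Lib.ModEq.PolyJ

set_option autoImplicit false

noncomputable section

namespace Fermat.Agent.Lib.ModEq

open Polynomial ModularCurve Fermat.Agent.S24

/-- the double sum -/
def dsum (q : ℕ) (c : ℕ → ℕ → Kbar) (x y : LaurentSeries Kbar) : LaurentSeries Kbar :=
  ∑ a ∈ Finset.range (q + 1), ∑ b ∈ Finset.range (q + 1), c a b • (x ^ a * y ^ b)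

/-- the coefficientwise scalar multiplication is the multiplication by the constant. -/
theorem smul_eq_algebraMap_mul_laurent (c : Kbar) (f : LaurentSeries Kbar) :
    c • f = algebraMap Kbar (LaurentSeries Kbar) c * f := by
  ext m
  rw [HahnSeries.coeff_smul, smul_eq_mul, Formal.coeff_algebraMap_mul_laurent]

theorem dsum_eq_algebraMap (q : ℕ) (c : ℕ → ℕ → Kbar) (x y : LaurentSeries Kbar) :
    dsum q c x y = ∑ a ∈ Finset.range (q + 1), ∑ b ∈ Finset.range (q + 1),
      algebraMap Kbar (LaurentSeries Kbar) (c a b) * (x ^ a * y ^ b) :=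
  Finset.sum_congr rfl fun _ _ => Finset.sum_congr rfl fun _ _ =>
    smul_eq_algebraMap_mul_laurent _ _

/-- the bivariate polynomial with coefficients `c a b`, `a, b ≤ q` (inner variable: exponent `a`,
outer variable: exponent `b`). -/
def shapePoly (q : ℕ) (c : ℕ → ℕ → Kbar) : Kbar[X][X] :=
  ∑ b ∈ Finset.range (q + 1), C (∑ a ∈ Finset.range (q + 1), C (c a b) * X ^ a) * X ^ b

theorem eval₂_shapePoly (q : ℕ) (c : ℕ → ℕ → Kbar) (x y : LaurentSeries Kbar) :
    (shapePoly q c).eval₂ (aeval x : Kbar[X] →ₐ[Kbar] LaurentSeries Kbar).toRingHom y =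
      dsum q c x y := by
  unfold shapePoly dsum
  rw [Polynomial.eval₂_finsetSum, Finset.sum_comm]
  refine Finset.sum_congr rfl fun b _ => ?_
  rw [eval₂_mul, eval₂_C, eval₂_pow, eval₂_X]
  rw [AlgHom.toRingHom_eq_coe, RingHom.coe_coe, map_sum, Finset.sum_mul]
  refine Finset.sum_congr rfl fun a _ => ?_
  rw [map_mul, aeval_C, map_pow, aeval_X, mul_assoc]
  exact (smul_eq_algebraMap_mul_laurent (c a b) (x ^ a * y ^ b)).symm

theorem natDegree_shapePoly_le (q : ℕ) (c : ℕ → ℕ → Kbar) : (shapePoly q c).natDegree ≤ q := by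
  unfold shapePoly
  refine Polynomial.natDegree_sum_le_of_forall_le _ _ fun b hb => ?_
  refine (natDegree_C_mul_X_pow_le _ _).trans ?_
  exact Nat.lt_succ_iff.mp (Finset.mem_range.mp hb)

theorem coeff_coeff_shapePoly (q : ℕ) (c : ℕ → ℕ → Kbar) (a b : ℕ) (ha : a ≤ q) (hb : b ≤ q) :
    ((shapePoly q c).coeff b).coeff a = c a b := by
  unfold shapePoly
  rw [finsetSum_coeff]
  simp only [coeff_C_mul_X_pow]
  rw [Finset.sum_ite_eq, if_pos (Finset.mem_range.mpr (Nat.lt_succ_of_le hb)), finsetSum_coeff]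
  simp only [coeff_C_mul_X_pow]
  rw [Finset.sum_ite_eq, if_pos (Finset.mem_range.mpr (Nat.lt_succ_of_le ha))]

theorem aeval_Jser_injective (d : ℕ) [NeZero d] :
    Function.Injective (aeval (Jser d) : Kbar[X] →ₐ[Kbar] LaurentSeries Kbar) := by
  rw [injective_iff_map_eq_zero]
  intro p hp
  have h := coeff_aeval_Jser d p p.natDegree le_rfl
  rw [hp] at h
  rw [← leadingCoeff_eq_zero]
  exact h.symm

theorem exists_primitiveRoot_unit (q : ℕ) [NeZero q] : ∃ ζ : Kbarˣ, IsPrimitiveRoot ζ q := by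
  obtain ⟨z, hz⟩ := HasEnoughRootsOfUnity.exists_primitiveRoot Kbar q
  obtain ⟨u, rfl⟩ := hz.isUnit (NeZero.ne q)
  exact ⟨u, IsPrimitiveRoot.coe_units_iff.mp hz⟩

theorem exists_shape (q : ℕ) [NeZero q] (hq : q.Prime) :
    ∃ c : ℕ → ℕ → Kbar, (∀ a b, IsIntegral ℤ (c a b)) ∧ c q q = -1 ∧
      Jser 1 ^ (q + 1) + Jser q ^ (q + 1) + dsum q c (Jser 1) (Jser q) = 0 := by
  obtain ⟨ζ, hζ⟩ := exists_primitiveRoot_unit q
  obtain ⟨P, hP, hP0⟩ := exists_poly_eq_Phis q hq ζ hζ
  have hco : ∀ i, aeval (Jser q) (P.coeff i) = (Phis q ζ).coeff i := by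
    intro i
    rw [← hP, coeff_map]
    rfl
  have hinj := aeval_Jser_injective q
  have htop : P.coeff (q + 1) = 1 := by
    apply hinj
    rw [hco, map_one]
    have := monic_Phis q ζ
    rw [Monic, leadingCoeff, natDegree_Phis] at this
    exact this
  have hdeg : P.natDegree ≤ q + 1 := by
    rw [natDegree_le_iff_coeff_eq_zero]
    intro i hi
    apply hinj
    rw [hco, map_zero]
    exact coeff_eq_zero_of_natDegree_lt (by rw [natDegree_Phis]; exact hi)
  have hd : ∀ i, 1 ≤ i → i ≤ q → (P.coeff i).natDegree ≤ q := by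
    intro i h1 hi
    apply natDegree_le_of_bdd q (P.coeff i) q
    rw [hco]
    refine (bdd_coeff_Phis q ζ i hi).mono ?_
    have : (1 : ℤ) ≤ i := by exact_mod_cast h1
    linarith
  have hd0 : (P.coeff 0).natDegree ≤ q + 1 := by
    apply natDegree_le_of_bdd q (P.coeff 0) (q + 1)
    rw [hco]
    refine (bdd_coeff_Phis q ζ 0 (Nat.zero_le _)).mono ?_
    have : (1 : ℤ) ≤ q := by exact_mod_cast hq.one_le
    push_cast
    nlinarith
  have h00 : (P.coeff 0).coeff (q + 1) = 1 := by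
    rw [← coeff_aeval_Jser q (P.coeff 0) (q + 1) hd0, hco]
    have := coeff_coeff_zero_Phis q hq ζ hζ
    push_cast
    exact this
  have hqq : (P.coeff q).coeff q = -1 := by
    rw [← coeff_aeval_Jser q (P.coeff q) q (hd q hq.one_le le_rfl), hco]
    exact coeff_coeff_q_Phis q hq ζ
  refine ⟨fun a b => (P.coeff b).coeff a, fun a b => ?_, hqq, ?_⟩
  · apply isIntegral_coeff_of_intC q
    rw [hco]
    exact intC_coeff_Phis q ζ hζ.pow_eq_one b
  · have hexp : ∀ b ∈ Finset.range (q + 1), aeval (Jser 1) (P.coeff b) =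
        (∑ a ∈ Finset.range (q + 1),
          algebraMap Kbar (LaurentSeries Kbar) ((P.coeff b).coeff a) * Jser 1 ^ a) +
          if b = 0 then Jser 1 ^ (q + 1) else 0 := by
      intro b hb
      by_cases hb0 : b = 0
      · subst hb0
        rw [if_pos rfl, aeval_eq_sum_range' (Nat.lt_succ_of_le hd0), Finset.sum_range_succ, h00]
        simp only [Algebra.smul_def, map_one, one_mul]
      · rw [if_neg hb0, add_zero, aeval_eq_sum_range' (Nat.lt_succ_of_le
          (hd b (Nat.pos_of_ne_zero hb0) (Nat.lt_succ_iff.mp (Finset.mem_range.mp hb))))]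
        simp only [Algebra.smul_def]
    rw [eval₂_eq_sum_range' _ (Nat.lt_succ_of_le hdeg), Finset.sum_range_succ, htop] at hP0
    rw [AlgHom.toRingHom_eq_coe, RingHom.coe_coe, map_one, one_mul] at hP0
    rw [Finset.sum_congr rfl (fun b hb => by rw [hexp b hb])] at hP0
    simp only [add_mul, Finset.sum_add_distrib, ite_mul, zero_mul] at hP0
    rw [Finset.sum_ite_eq', if_pos (Finset.mem_range.mpr (Nat.succ_pos q)), pow_zero, mul_one]
      at hP0
    rw [← hP0, dsum_eq_algebraMap, Finset.sum_comm]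
    simp only [Finset.sum_mul, mul_assoc]
    ring

/-- linear independence of the monomials. -/
theorem eq_zero_of_dsum_eq_zero (q : ℕ) [NeZero q] (hq : q.Prime) (c : ℕ → ℕ → Kbar)
    (h : dsum q c (Jser 1) (Jser q) = 0) : ∀ a ≤ q, ∀ b ≤ q, c a b = 0 := by
  intro a ha b hb
  have h0 : shapePoly q c = 0 :=
    eq_zero_of_eval₂_eq_zero q hq _ (natDegree_shapePoly_le q c) (by rw [eval₂_shapePoly, h])
  rw [← coeff_coeff_shapePoly q c a b ha hb, h0, coeff_zero, coeff_zero]

theorem dsum_swap (q : ℕ) (c : ℕ → ℕ → Kbar) (x y : LaurentSeries Kbar) :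
    dsum q (fun a b => c b a) x y = dsum q c y x := by
  unfold dsum
  rw [Finset.sum_comm]
  refine Finset.sum_congr rfl fun a _ => Finset.sum_congr rfl fun b _ => ?_
  rw [mul_comm]

theorem shape_swap (q : ℕ) [NeZero q] (hq : q.Prime) (c : ℕ → ℕ → Kbar)
    (h : Jser 1 ^ (q + 1) + Jser q ^ (q + 1) + dsum q c (Jser 1) (Jser q) = 0) :
    Jser 1 ^ (q + 1) + Jser q ^ (q + 1) + dsum q (fun a b => c b a) (Jser 1) (Jser q) = 0 := by
  have key : ∀ x y : LaurentSeries Kbar,
      (C (X ^ (q + 1)) + X ^ (q + 1) + shapePoly q c : Kbar[X][X]).eval₂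
        (aeval x : Kbar[X] →ₐ[Kbar] LaurentSeries Kbar).toRingHom y =
      x ^ (q + 1) + y ^ (q + 1) + dsum q c x y := by
    intro x y
    rw [eval₂_add, eval₂_add, eval₂_shapePoly, eval₂_C, eval₂_pow, eval₂_X,
      AlgHom.toRingHom_eq_coe, RingHom.coe_coe, map_pow, aeval_X]
  have h1 := eval₂_swap q hq _ ((key _ _).trans h)
  rw [key] at h1
  rw [dsum_swap, ← h1]
  ring

end Fermat.Agent.Lib.ModEq

end
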