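/-
Library ModEq (architect helper254).  MODEQ-6: rationality.  Owner: helper47.
-/
import Fermat.Agent.Lib.ModEq.Shape

set_option autoImplicit false

noncomputable section

namespace Fermat.Agent.Lib.ModEq

open Polynomial ModularCurve Fermat.Agent.S24

/-- the coefficients of the left hand side of the modular equation. -/
private theorem coeff_shape (q : ℕ) [NeZero q] (d : ℕ → ℕ → Kbar) (n : ℤ) :
    (Jser 1 ^ (q + 1) + Jser q ^ (q + 1) + dsum q d (Jser 1) (Jser q)).coeff n =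
      algebraMap ℚ Kbar ((qExpand ℚ 1 jq ^ (q + 1)).coeff n) +
        algebraMap ℚ Kbar ((qExpand ℚ q jq ^ (q + 1)).coeff n) +
        ∑ a ∈ Finset.range (q + 1), ∑ b ∈ Finset.range (q + 1),
          d a b * algebraMap ℚ Kbar ((qExpand ℚ 1 jq ^ a * qExpand ℚ q jq ^ b).coeff n) := by
  have hx : Jser 1 = coeffEmb Kbar (qExpand ℚ 1 jq) := rfl
  have hy : Jser q = coeffEmb Kbar (qExpand ℚ q jq) := rfl
  rw [hx, hy, dsum]
  simp only [← map_pow, ← map_mul, HahnSeries.coeff_add, HahnSeries.coeff_sum,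
    HahnSeries.coeff_smul, coeffEmb_coeff, smul_eq_mul]

/-- a `ℚ`-linear retraction `λ : ℚ̄ → ℚ` applied to the coefficients of the series. -/
theorem exists_rat_of_shape (q : ℕ) [NeZero q] (c : ℕ → ℕ → Kbar)
    (h : Jser 1 ^ (q + 1) + Jser q ^ (q + 1) + dsum q c (Jser 1) (Jser q) = 0) :
    ∃ c' : ℕ → ℕ → ℚ,
      Jser 1 ^ (q + 1) + Jser q ^ (q + 1) +
        dsum q (fun a b => algebraMap ℚ Kbar (c' a b)) (Jser 1) (Jser q) = 0 := by
  obtain ⟨lam, hlam⟩ := LinearMap.exists_leftInverse_of_injective (Algebra.linearMap ℚ Kbar)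
    (LinearMap.ker_eq_bot.2 (algebraMap ℚ Kbar).injective)
  have hl : ∀ r : ℚ, lam (algebraMap ℚ Kbar r) = r := fun r => LinearMap.congr_fun hlam r
  have hl2 : ∀ (z : Kbar) (r : ℚ), lam (z * algebraMap ℚ Kbar r) = lam z * r := by
    intro z r
    rw [mul_comm z, ← Algebra.smul_def, map_smul, smul_eq_mul, mul_comm]
  refine ⟨fun a b => lam (c a b), ?_⟩
  ext n
  have h1 : lam ((Jser 1 ^ (q + 1) + Jser q ^ (q + 1) + dsum q c (Jser 1) (Jser q)).coeff n) = 0 := by
    rw [h, HahnSeries.coeff_zero, map_zero]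
  rw [coeff_shape, map_add, map_add, hl, hl, map_sum] at h1
  simp only [map_sum, hl2] at h1
  rw [coeff_shape, HahnSeries.coeff_zero]
  simp only [← map_mul, ← map_sum, ← map_add]
  rw [h1, map_zero]

end Fermat.Agent.Lib.ModEq

end
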