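/-
Library ModEq (architect helper254).  MODEQ-7: the modular equation over `ℤ`.
Proofs: helper196 (task 2103).
-/
import Fermat.Agent.Lib.ModEq.Rational

set_option autoImplicit false

noncomputable section

namespace Fermat.Agent.Lib.ModEq

open Polynomial ModularCurve Fermat.Agent.S24

private theorem Main_Jser_eq (d : ℕ) [NeZero d] : Jser d = qExpand Kbar d (jqModC Kbar) := by
  unfold Jser coeffEmb
  rw [coeffMap_qExpand, ← jqModC_rat, coeffMap_jqModC]

private theorem Main_Jser_one : Jser 1 = jqModC Kbar := by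
  rw [Main_Jser_eq, qExpand_one_apply]

private theorem Main_dsum_sub (q : ℕ) (c c' : ℕ → ℕ → Kbar) (x y : LaurentSeries Kbar) :
    dsum q (fun a b => c a b - c' a b) x y = dsum q c x y - dsum q c' x y := by
  unfold dsum
  simp only [sub_smul, Finset.sum_sub_distrib]

/-- uniqueness of the coefficients of the equation -/
private theorem Main_unique (q : ℕ) [NeZero q] (hq : q.Prime) (c c' : ℕ → ℕ → Kbar)
    (h : Jser 1 ^ (q + 1) + Jser q ^ (q + 1) + dsum q c (Jser 1) (Jser q) = 0)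
    (h' : Jser 1 ^ (q + 1) + Jser q ^ (q + 1) + dsum q c' (Jser 1) (Jser q) = 0) :
    ∀ a ≤ q, ∀ b ≤ q, c a b = c' a b := by
  intro a ha b hb
  have h0 := eq_zero_of_dsum_eq_zero q hq (fun a b => c a b - c' a b)
    (by rw [Main_dsum_sub]; linear_combination h - h') a ha b hb
  exact sub_eq_zero.1 h0

private theorem Main_coeffMap_injective :
    Function.Injective (coeffMap (Int.castRingHom Kbar)) := by
  intro x y h
  ext k
  have h1 : (Int.castRingHom Kbar) (x.coeff k) = (Int.castRingHom Kbar) (y.coeff k) := by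
    rw [← coeffMap_coeff, ← coeffMap_coeff, h]
  exact Int.cast_injective h1

/-- **The modular equation.** -/
theorem exists_modEq (q : ℕ) [NeZero q] (hq : q.Prime) :
    ∃ c : ℕ → ℕ → ℤ, (∀ a b, c a b = c b a) ∧ c q q = -1 ∧
      jqModC ℤ ^ (q + 1) + qExpand ℤ q (jqModC ℤ) ^ (q + 1) +
        ∑ a ∈ Finset.range (q + 1), ∑ b ∈ Finset.range (q + 1),
          ((c a b : ℤ) : LaurentSeries ℤ) * jqModC ℤ ^ a * qExpand ℤ q (jqModC ℤ) ^ b = 0 := by
  classical
  obtain ⟨c, hint, hqq, hc⟩ := exists_shape q hq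
  obtain ⟨c', hc'⟩ := exists_rat_of_shape q c hc
  have h1 : ∀ a ≤ q, ∀ b ≤ q, c a b = algebraMap ℚ Kbar (c' a b) :=
    Main_unique q hq c _ hc hc'
  have h2 : ∀ a b, a ≤ q ∧ b ≤ q → ∃ n : ℤ, ((n : ℤ) : Kbar) = c a b := by
    intro a b hab
    have hi : IsIntegral ℤ (algebraMap ℚ Kbar (c' a b)) := h1 a hab.1 b hab.2 ▸ hint a b
    rw [isIntegral_algebraMap_iff (algebraMap ℚ Kbar).injective] at hi
    obtain ⟨n, hn⟩ := IsIntegrallyClosed.isIntegral_iff.1 hi
    refine ⟨n, ?_⟩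
    rw [h1 a hab.1 b hab.2, ← hn]
    simp
  let cz : ℕ → ℕ → ℤ := fun a b => if h : a ≤ q ∧ b ≤ q then (h2 a b h).choose else 0
  have hcz : ∀ a ≤ q, ∀ b ≤ q, ((cz a b : ℤ) : Kbar) = c a b := by
    intro a ha b hb
    have e : cz a b = (h2 a b ⟨ha, hb⟩).choose := dif_pos ⟨ha, hb⟩
    rw [e]
    exact (h2 a b ⟨ha, hb⟩).choose_spec
  have hsymm : ∀ a ≤ q, ∀ b ≤ q, c a b = c b a :=
    Main_unique q hq c _ hc (shape_swap q hq c hc)
  refine ⟨cz, ?_, ?_, ?_⟩
  · intro a b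
    by_cases h : a ≤ q ∧ b ≤ q
    · apply Int.cast_injective (α := Kbar)
      rw [hcz a h.1 b h.2, hcz b h.2 a h.1, hsymm a h.1 b h.2]
    · have e1 : cz a b = 0 := dif_neg h
      have e2 : cz b a = 0 := dif_neg (fun h' => h ⟨h'.2, h'.1⟩)
      rw [e1, e2]
  · apply Int.cast_injective (α := Kbar)
    rw [hcz q le_rfl q le_rfl, hqq]
    simp
  · apply Main_coeffMap_injective
    rw [map_zero, ← hc]
    simp only [map_add, map_pow, map_sum, map_mul, map_intCast, coeffMap_qExpand,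
      coeffMap_jqModC]
    rw [Main_Jser_one, Main_Jser_eq q]
    congr 1
    unfold dsum
    refine Finset.sum_congr rfl fun a ha => Finset.sum_congr rfl fun b hb => ?_
    rw [← hcz a (Nat.lt_succ_iff.1 (Finset.mem_range.1 ha)) b
      (Nat.lt_succ_iff.1 (Finset.mem_range.1 hb)), Int.cast_smul_eq_zsmul, zsmul_eq_mul, mul_assoc]

/-- the coefficients of `Φ_q - X ^ (q + 1) - Y ^ (q + 1)`. -/
def cPhi (q : ℕ) : ℕ → ℕ → ℤ :=
  if hq : q.Prime then (haveI : NeZero q := ⟨hq.ne_zero⟩; (exists_modEq q hq).choose) else 0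

theorem cPhi_symm (q : ℕ) (a b : ℕ) : cPhi q a b = cPhi q b a := by
  unfold cPhi
  split_ifs with hq
  · exact (@exists_modEq q ⟨hq.ne_zero⟩ hq).choose_spec.1 a b
  · rfl

theorem cPhi_top (q : ℕ) (hq : q.Prime) : cPhi q q q = -1 := by
  unfold cPhi
  rw [dif_pos hq]
  exact (@exists_modEq q ⟨hq.ne_zero⟩ hq).choose_spec.2.1

/-- the equation under any ring homomorphism out of `ℤ((t))`. -/
theorem modEq_map (q : ℕ) [NeZero q] (hq : q.Prime) {E : Type*} [CommRing E]
    (φ : LaurentSeries ℤ →+* E) :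
    φ (jqModC ℤ) ^ (q + 1) + φ (qExpand ℤ q (jqModC ℤ)) ^ (q + 1) +
      ∑ a ∈ Finset.range (q + 1), ∑ b ∈ Finset.range (q + 1),
        ((cPhi q a b : ℤ) : E) * φ (jqModC ℤ) ^ a * φ (qExpand ℤ q (jqModC ℤ)) ^ b = 0 := by
  have e : cPhi q = (exists_modEq q hq).choose := by
    unfold cPhi
    rw [dif_pos hq]
  have h := congrArg φ (exists_modEq q hq).choose_spec.2.2
  rw [← e] at h
  simpa only [map_add, map_pow, map_sum, map_mul, map_intCast, map_zero] using h

end Fermat.Agent.Lib.ModEq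

end
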