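/-
Library ModEq (architect helper254).  MODEQ-8: the equation in the function fields `FK K N`.
(task 2104, proofs helper252)
-/
import Fermat.Agent.Lib.ModEq.Main
import Fermat.Agent.S36.Mod.Fields
import Fermat.Agent.S18.Defs
import Fermat.Agent.S18.Chart.Const

set_option autoImplicit false

noncomputable section

namespace Fermat.Agent.Lib.ModEq

open Polynomial ModularCurve Fermat.Agent.S24 Fermat.Agent.S18 Fermat.Agent.S36.Mod

variable (K : Type*) [Field K] [Algebra ℚ K]

private theorem field_coeffMap_qExpand {R S : Type*} [CommRing R] [CommRing S] (f : R →+* S)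
    (n : ℕ) [NeZero n] (x : LaurentSeries R) :
    coeffMap f (qExpand R n x) = qExpand S n (coeffMap f x) := by
  ext k
  by_cases hk : (n : ℤ) ∣ k
  · obtain ⟨m, rfl⟩ := hk
    rw [coeffMap_coeff, qExpand_coeff_mul, qExpand_coeff_mul, coeffMap_coeff]
  · rw [coeffMap_coeff, qExpand_coeff_of_not_dvd n _ hk, qExpand_coeff_of_not_dvd n _ hk,
      map_zero]

private theorem field_coeffMap_jqModC {R S : Type*} [CommRing R] [CommRing S] (f : R →+* S) :
    coeffMap f (jqModC R) = jqModC S := map_jqModC f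

/-- `j(t^d)` with coefficients in `K` is the image of the integral series. -/
theorem Js_eq_qExpand_jqModC (d : ℕ) [NeZero d] : Js K d = qExpand K d (jqModC K) := by
  rw [Js, coeffEmb, field_coeffMap_qExpand, ← jqModC_rat, field_coeffMap_jqModC]

private theorem field_phi_one (d : ℕ) [NeZero d] :
    ((qExpand K d).comp (coeffMap (Int.castRingHom K))) (jqModC ℤ) = Js K d := by
  rw [RingHom.comp_apply, field_coeffMap_jqModC, Js_eq_qExpand_jqModC]

private theorem field_phi_two (q d : ℕ) [NeZero q] [NeZero d] :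
    ((qExpand K d).comp (coeffMap (Int.castRingHom K))) (qExpand ℤ q (jqModC ℤ)) =
      Js K (d * q) := by
  rw [RingHom.comp_apply, field_coeffMap_qExpand, field_coeffMap_jqModC, qExpand_qExpand,
    Js_eq_qExpand_jqModC]

theorem modEq_JK (q : ℕ) [NeZero q] (hq : q.Prime) (N d : ℕ) [NeZero d] (h1 : d ∣ N)
    (h2 : d * q ∣ N) :
    JK K N d h1 ^ (q + 1) + JK K N (d * q) h2 ^ (q + 1) +
      ∑ a ∈ Finset.range (q + 1), ∑ b ∈ Finset.range (q + 1),
        ((cPhi q a b : ℤ) : FK K N) * JK K N d h1 ^ a * JK K N (d * q) h2 ^ b = 0 := by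
  have h := modEq_map q hq ((qExpand K d).comp (coeffMap (Int.castRingHom K)))
  rw [field_phi_one, field_phi_two] at h
  have hinj : Function.Injective (FK K N).val := Subtype.val_injective
  apply hinj
  simp only [map_add, map_pow, map_sum, map_mul, map_intCast, map_zero]
  exact h

theorem modEq_JK' (q : ℕ) [NeZero q] (hq : q.Prime) (N d : ℕ) [NeZero d] (h1 : d ∣ N)
    (h2 : d * q ∣ N) :
    JK K N (d * q) h2 ^ (q + 1) + JK K N d h1 ^ (q + 1) +
      ∑ a ∈ Finset.range (q + 1), ∑ b ∈ Finset.range (q + 1),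
        ((cPhi q a b : ℤ) : FK K N) * JK K N (d * q) h2 ^ a * JK K N d h1 ^ b = 0 := by
  have h := modEq_JK K q hq N d h1 h2
  rw [Finset.sum_comm] at h
  have hs : ∑ a ∈ Finset.range (q + 1), ∑ b ∈ Finset.range (q + 1),
        ((cPhi q a b : ℤ) : FK K N) * JK K N (d * q) h2 ^ a * JK K N d h1 ^ b =
      ∑ a ∈ Finset.range (q + 1), ∑ b ∈ Finset.range (q + 1),
        ((cPhi q b a : ℤ) : FK K N) * JK K N d h1 ^ b * JK K N (d * q) h2 ^ a := by
    refine Finset.sum_congr rfl fun a _ => Finset.sum_congr rfl fun b _ => ?_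
    rw [cPhi_symm q a b, mul_assoc, mul_assoc, mul_comm (JK K N (d * q) h2 ^ a)]
  rw [hs, add_comm (JK K N (d * q) h2 ^ (q + 1))]
  exact h

/-- a root `y` of `x ^ (n + 1) + Y ^ (n + 1) + ∑_{a, b ≤ n} c a b x ^ a Y ^ b` is integral over every
subring containing `x`. -/
theorem isIntegral_of_modEq {F : Type*} [Field F] (P : Subring F) (n : ℕ) (c : ℕ → ℕ → ℤ)
    {x y : F} (hx : x ∈ P)
    (h : x ^ (n + 1) + y ^ (n + 1) + ∑ a ∈ Finset.range (n + 1), ∑ b ∈ Finset.range (n + 1),
      ((c a b : ℤ) : F) * x ^ a * y ^ b = 0) : IsIntegral P y := by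
  set xP : P := ⟨x, hx⟩ with hxP
  set r : P[X] := ∑ b ∈ Finset.range (n + 1),
    C (∑ a ∈ Finset.range (n + 1), ((c a b : ℤ) : P) * xP ^ a) * X ^ b + C (xP ^ (n + 1)) with hr
  have hdeg : r.degree < ((n + 1 : ℕ) : WithBot ℕ) := by
    rw [← Polynomial.mem_degreeLT]
    refine Submodule.add_mem _ (Submodule.sum_mem _ fun b hb => ?_) ?_
    · rw [Polynomial.mem_degreeLT]
      exact lt_of_le_of_lt (degree_C_mul_X_pow_le _ _) (by exact_mod_cast Finset.mem_range.1 hb)
    · rw [Polynomial.mem_degreeLT]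
      exact lt_of_le_of_lt degree_C_le (by exact_mod_cast Nat.succ_pos n)
  refine ⟨X ^ (n + 1) + r, monic_X_pow_add hdeg, ?_⟩
  have hxF : algebraMap P F xP = x := rfl
  rw [hr]
  simp only [eval₂_add, eval₂_pow, eval₂_X, eval₂_finsetSum, eval₂_mul, eval₂_C]
  simp only [map_sum, map_mul, map_pow, map_intCast, hxF]
  rw [← h, Finset.sum_comm]
  have : ∀ b ∈ Finset.range (n + 1), (∑ a ∈ Finset.range (n + 1), ((c a b : ℤ) : F) * x ^ a) * y ^ b =
      ∑ a ∈ Finset.range (n + 1), ((c a b : ℤ) : F) * x ^ a * y ^ b := fun b _ => by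
    rw [Finset.sum_mul]
  rw [Finset.sum_congr rfl this]
  ring

omit [Algebra ℚ K] in
private theorem field_self_mem_polyRing {F : Type*} [Field F] [Algebra K F] (S : Subring K)
    (x : F) : x ∈ polyRing S x := by
  rw [mem_polyRing_iff]
  refine ⟨X, fun i => ?_, aeval_X x⟩
  rw [coeff_X]
  split_ifs
  · exact S.one_mem
  · exact S.zero_mem

/-- `j(dqτ)` is integral over `S[j(dτ)]` for every subring `S` of `K`. -/
theorem JK_mul_mem_chart (S : Subring K) (q : ℕ) [NeZero q] (hq : q.Prime) (N d : ℕ) [NeZero d]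
    (h1 : d ∣ N) (h2 : d * q ∣ N) : JK K N (d * q) h2 ∈ chart S (JK K N d h1) := by
  rw [mem_chart_iff_isIntegral]
  exact isIntegral_of_modEq _ q (cPhi q) (field_self_mem_polyRing K S _) (modEq_JK K q hq N d h1 h2)

theorem JK_mem_chart_mul (S : Subring K) (q : ℕ) [NeZero q] (hq : q.Prime) (N d : ℕ) [NeZero d]
    (h1 : d ∣ N) (h2 : d * q ∣ N) : JK K N d h1 ∈ chart S (JK K N (d * q) h2) := by
  rw [mem_chart_iff_isIntegral]
  exact isIntegral_of_modEq _ q (cPhi q) (field_self_mem_polyRing K S _) (modEq_JK' K q hq N d h1 h2)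

end Fermat.Agent.Lib.ModEq

end
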